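import Fermat.Agent.S55.H413.WRLocal

/-!
# S55, leaf WR (weak reciprocity), part 2: the elementary product formula

For a prime `p` and `m : ℕ` we define explicit local characters with values in `(ZMod (p ^ m))ˣ`
(the Galois group of `ℚ(ζ_{p^m})/ℚ`):
* `tameChar p m ℓ : ℚ_[ℓ]ˣ →* (ZMod (p ^ m))ˣ`, `x ↦ ℓ ^ v_ℓ(x)` for `ℓ ≠ p`,
* `wildChar p m : ℚ_[p]ˣ →* (ZMod (p ^ m))ˣ`, `x ↦ (unit part of x mod p ^ m)⁻¹`,
* `signChar p m : ℚˣ →* (ZMod (p ^ m))ˣ`, the sign,
and prove the product formula `signChar b * wildChar b * ∏ᶠ ℓ ≠ p, tameChar ℓ b = 1` for `b : ℚˣ`.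
-/

set_option autoImplicit false

namespace Fermat.Agent.S55.H413

open Padic

/-- Two homomorphisms on `ℚˣ` which agree on `-1` and on all primes are equal. -/
theorem ratUnits_hom_ext {G : Type*} [CommGroup G] (f g : ℚˣ →* G)
    (hneg : f (-1) = g (-1))
    (hprime : ∀ q : ℕ, q.Prime → ∀ u : ℚˣ, (u : ℚ) = q → f u = g u) : f = g := by
  have hnat : ∀ n : ℕ, n ≠ 0 → ∀ u : ℚˣ, (u : ℚ) = n → f u = g u := by
    intro n
    induction n using Nat.recOnMul with
    | zero => intro h; exact absurd rfl h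
    | one =>
      intro _ u hu
      have : u = 1 := Units.ext (by simpa using hu)
      rw [this, map_one, map_one]
    | prime q hq => intro _ u hu; exact hprime q hq u hu
    | mul a b iha ihb =>
      intro hab u hu
      have ha : a ≠ 0 := fun h => hab (by simp [h])
      have hb : b ≠ 0 := fun h => hab (by simp [h])
      have hu' : u = Units.mk0 (a : ℚ) (by exact_mod_cast ha) *
          Units.mk0 (b : ℚ) (by exact_mod_cast hb) := by
        apply Units.ext
        simp [hu]
      rw [hu', map_mul, map_mul, iha ha _ rfl, ihb hb _ rfl]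
  have hint : ∀ z : ℤ, z ≠ 0 → ∀ u : ℚˣ, (u : ℚ) = z → f u = g u := by
    intro z hz u hu
    have hn : z.natAbs ≠ 0 := Int.natAbs_ne_zero.mpr hz
    rcases Int.natAbs_eq z with h | h
    · apply hnat z.natAbs hn u
      rw [hu]
      conv_lhs => rw [h]
      simp
    · have hu' : u = -1 * Units.mk0 (z.natAbs : ℚ) (by exact_mod_cast hn) := by
        apply Units.ext
        rw [hu]
        conv_lhs => rw [h]
        simp
      rw [hu', map_mul, map_mul, hneg, hnat z.natAbs hn _ rfl]
  ext b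
  have hnum : (b : ℚ).num ≠ 0 := Rat.num_ne_zero.mpr b.ne_zero
  have hden : ((b : ℚ).den : ℤ) ≠ 0 := by exact_mod_cast (b : ℚ).den_nz
  have hb : b = Units.mk0 ((b : ℚ).num : ℚ) (by exact_mod_cast hnum) *
      (Units.mk0 (((b : ℚ).den : ℤ) : ℚ) (by exact_mod_cast hden))⁻¹ := by
    apply Units.ext
    simp only [Units.val_mul, Units.val_mk0, Units.val_inv_eq_inv_val, Int.cast_natCast]
    rw [← div_eq_mul_inv, Rat.num_div_den]
  rw [hb, map_mul, map_mul, map_inv, map_inv, hint _ hnum _ rfl, hint _ hden _ rfl]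

variable (p : ℕ) [hp : Fact p.Prime] (m : ℕ)

/-- A prime `ℓ ≠ p` as a unit of `ZMod (p ^ m)`. -/
noncomputable def primeUnit (ℓ : ℕ) [hℓ : Fact ℓ.Prime] (h : ℓ ≠ p) : (ZMod (p ^ m))ˣ :=
  ZMod.unitOfCoprime ℓ (Nat.Coprime.pow_right m ((Nat.coprime_primes hℓ.out hp.out).mpr h))

@[simp] lemma coe_primeUnit (ℓ : ℕ) [hℓ : Fact ℓ.Prime] (h : ℓ ≠ p) :
    ((primeUnit p m ℓ h : (ZMod (p ^ m))ˣ) : ZMod (p ^ m)) = (ℓ : ZMod (p ^ m)) := rfl

/-- The explicit (tame) local character at `ℓ ≠ p`: `x ↦ ℓ ^ v_ℓ(x)`. -/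
noncomputable def tameChar (ℓ : ℕ) [hℓ : Fact ℓ.Prime] (h : ℓ ≠ p) : ℚ_[ℓ]ˣ →* (ZMod (p ^ m))ˣ :=
  (zpowersHom (ZMod (p ^ m))ˣ (primeUnit p m ℓ h)).comp (valHom ℓ)

lemma tameChar_apply (ℓ : ℕ) [hℓ : Fact ℓ.Prime] (h : ℓ ≠ p) (x : ℚ_[ℓ]ˣ) :
    tameChar p m ℓ h x = primeUnit p m ℓ h ^ (x : ℚ_[ℓ]).valuation := rfl

/-- The explicit (wild) local character at `p`: `x ↦ (unit part of x mod p ^ m)⁻¹`. -/
noncomputable def wildChar : ℚ_[p]ˣ →* (ZMod (p ^ m))ˣ :=
  (unitResidue p m).comp (MonoidHom.id _) |>.comp (invMonoidHom (α := ℚ_[p]ˣ))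

lemma wildChar_apply (x : ℚ_[p]ˣ) : wildChar p m x = (unitResidue p m x)⁻¹ := by
  simp [wildChar]

/-- The sign of a nonzero rational, with values in `(ZMod (p ^ m))ˣ`. -/
noncomputable def signChar : ℚˣ →* (ZMod (p ^ m))ˣ where
  toFun b := if 0 < (b : ℚ) then 1 else -1
  map_one' := by simp
  map_mul' a b := by
    rcases lt_or_gt_of_ne a.ne_zero with ha | ha <;> rcases lt_or_gt_of_ne b.ne_zero with hb | hb
    · simp [mul_pos_of_neg_of_neg ha hb, not_lt.mpr ha.le, not_lt.mpr hb.le]
    · simp [not_lt.mpr (mul_neg_of_neg_of_pos ha hb).le, not_lt.mpr ha.le, hb]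
    · simp [not_lt.mpr (mul_neg_of_pos_of_neg ha hb).le, not_lt.mpr hb.le, ha]
    · simp [mul_pos ha hb, ha, hb]

omit hp in
lemma signChar_of_pos (b : ℚˣ) (hb : 0 < (b : ℚ)) : signChar p m b = 1 := by
  simp [signChar, hb]

omit hp in
lemma signChar_neg_one : signChar p m (-1) = -1 := by
  simp [signChar]

/-- The image of a nonzero rational in `ℚ_[ℓ]ˣ`. -/
noncomputable def toPadicUnits (ℓ : ℕ) [Fact ℓ.Prime] : ℚˣ →* ℚ_[ℓ]ˣ :=
  Units.map (Rat.castHom ℚ_[ℓ]).toMonoidHom

@[simp] lemma coe_toPadicUnits (ℓ : ℕ) [Fact ℓ.Prime] (b : ℚˣ) :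
    ((toPadicUnits ℓ b : ℚ_[ℓ]ˣ) : ℚ_[ℓ]) = ((b : ℚ) : ℚ_[ℓ]) := rfl

/-- The tame character at the prime `q` evaluated on a global element (and `1` if `q = p`). -/
noncomputable def tameGlobal (q : Nat.Primes) (b : ℚˣ) : (ZMod (p ^ m))ˣ :=
  haveI : Fact (q : ℕ).Prime := ⟨q.2⟩
  if h : (q : ℕ) = p then 1 else tameChar p m (q : ℕ) h (toPadicUnits (q : ℕ) b)

lemma tameGlobal_of_ne (q : Nat.Primes) (h : (q : ℕ) ≠ p) (b : ℚˣ) :
    tameGlobal p m q b =
      (haveI : Fact (q : ℕ).Prime := ⟨q.2⟩; primeUnit p m (q : ℕ) h) ^ padicValRat (q : ℕ) (b : ℚ) := by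
  have : Fact (q : ℕ).Prime := ⟨q.2⟩
  rw [tameGlobal, dif_neg h, tameChar_apply, coe_toPadicUnits, Padic.valuation_ratCast]

lemma tameGlobal_of_eq (q : Nat.Primes) (h : (q : ℕ) = p) (b : ℚˣ) :
    tameGlobal p m q b = 1 := by
  rw [tameGlobal, dif_pos h]

lemma tameGlobal_mul (q : Nat.Primes) (a b : ℚˣ) :
    tameGlobal p m q (a * b) = tameGlobal p m q a * tameGlobal p m q b := by
  have : Fact (q : ℕ).Prime := ⟨q.2⟩
  by_cases h : (q : ℕ) = p
  · simp [tameGlobal, h]
  · simp [tameGlobal, h, map_mul]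

lemma tameGlobal_one (q : Nat.Primes) : tameGlobal p m q 1 = 1 := by
  have : Fact (q : ℕ).Prime := ⟨q.2⟩
  by_cases h : (q : ℕ) = p
  · simp [tameGlobal, h]
  · simp [tameGlobal, h, map_one]

/-- `tameGlobal q b = 1` unless `q` divides the numerator or the denominator of `b`. -/
lemma tameGlobal_eq_one_of_not_dvd (q : Nat.Primes) (b : ℚˣ)
    (h : ¬ (q : ℕ) ∣ (b : ℚ).num.natAbs * (b : ℚ).den) : tameGlobal p m q b = 1 := by
  have : Fact (q : ℕ).Prime := ⟨q.2⟩
  by_cases hq : (q : ℕ) = p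
  · exact tameGlobal_of_eq p m q hq b
  · rw [tameGlobal_of_ne p m q hq]
    have h1 : ¬ (q : ℕ) ∣ (b : ℚ).num.natAbs := fun hh => h (hh.mul_right _)
    have h2 : ¬ (q : ℕ) ∣ (b : ℚ).den := fun hh => h (hh.mul_left _)
    have : padicValRat (q : ℕ) (b : ℚ) = 0 := by
      rw [padicValRat, padicValInt, padicValNat.eq_zero_of_not_dvd h1,
        padicValNat.eq_zero_of_not_dvd h2]
      simp
    rw [this, zpow_zero]

lemma finite_mulSupport_tameGlobal (b : ℚˣ) :
    (Function.mulSupport fun q : Nat.Primes => tameGlobal p m q b).Finite := by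
  have hfin : {n : ℕ | n ∣ (b : ℚ).num.natAbs * (b : ℚ).den}.Finite := by
    apply Set.Finite.subset (Set.finite_Iic ((b : ℚ).num.natAbs * (b : ℚ).den))
    intro n hn
    apply Nat.le_of_dvd _ hn
    exact Nat.mul_pos (Int.natAbs_pos.mpr (Rat.num_ne_zero.mpr b.ne_zero)) (b : ℚ).den_pos
  apply Set.Finite.subset (hfin.preimage (Nat.Primes.coe_nat_injective.injOn))
  intro q hq
  by_contra hh
  exact hq (tameGlobal_eq_one_of_not_dvd p m q b hh)

/-- The product of all tame characters, as a homomorphism on `ℚˣ`. -/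
noncomputable def tameProd : ℚˣ →* (ZMod (p ^ m))ˣ where
  toFun b := ∏ᶠ q : Nat.Primes, tameGlobal p m q b
  map_one' := by simp [tameGlobal_one]
  map_mul' a b := by
    simp only [tameGlobal_mul]
    exact finprod_mul_distrib (finite_mulSupport_tameGlobal p m a)
      (finite_mulSupport_tameGlobal p m b)

lemma tameProd_apply (b : ℚˣ) : tameProd p m b = ∏ᶠ q : Nat.Primes, tameGlobal p m q b := rfl

/-- **Elementary product formula** for the explicit local characters of `ℚ(ζ_{p^m})/ℚ`. -/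
theorem signChar_mul_wildChar_mul_tameProd (b : ℚˣ) :
    signChar p m b * wildChar p m (toPadicUnits p b) * tameProd p m b = 1 := by
  have key : (signChar p m * (wildChar p m).comp (toPadicUnits p) * tameProd p m) = 1 := by
    apply ratUnits_hom_ext
    · -- `-1`
      simp only [MonoidHom.mul_apply, MonoidHom.comp_apply, MonoidHom.one_apply, signChar_neg_one,
        wildChar_apply, tameProd_apply]
      have h1 : unitResidue p m (toPadicUnits p (-1)) = -1 := by
        apply Units.ext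
        rw [unitResidue_intCast p m (-1) _ _ (by simp)]
        · simp
        · intro h
          have := Int.natAbs_dvd_natAbs.mpr h
          simp only [Int.natAbs_natCast, Int.natAbs_neg, Int.natAbs_one, Nat.dvd_one] at this
          exact hp.out.ne_one this
      have h2 : ∀ q : Nat.Primes, tameGlobal p m q (-1) = 1 := by
        intro q
        apply tameGlobal_eq_one_of_not_dvd
        have e1 : ((-1 : ℚˣ) : ℚ).num.natAbs = 1 := by
          rw [Units.val_neg, Units.val_one]; rfl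
        have e2 : ((-1 : ℚˣ) : ℚ).den = 1 := by
          rw [Units.val_neg, Units.val_one]; rfl
        rw [e1, e2, mul_one, Nat.dvd_one]
        exact q.2.ne_one
      simp [h1, h2]
    · intro q hq u hu
      simp only [MonoidHom.mul_apply, MonoidHom.comp_apply, MonoidHom.one_apply, wildChar_apply,
        tameProd_apply]
      have hupos : 0 < (u : ℚ) := by rw [hu]; exact_mod_cast hq.pos
      rw [signChar_of_pos p m u hupos, one_mul]
      have hsingle : ∀ q' : Nat.Primes, (q' : ℕ) ≠ q → tameGlobal p m q' u = 1 := by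
        intro q' hq'
        apply tameGlobal_eq_one_of_not_dvd
        rw [hu]
        simp only [Rat.num_natCast, Int.natAbs_natCast, Rat.den_natCast, mul_one]
        intro hdvd
        exact hq' ((Nat.prime_dvd_prime_iff_eq q'.2 hq).mp hdvd)
      by_cases hqp : q = p
      · -- `q = p`: unit part is `1`, all tame characters are trivial
        have h1 : unitResidue p m (toPadicUnits p u) = 1 := by
          rw [unitResidue, MonoidHom.comp_apply, unitPart_self p _ (by simp [hu, hqp]), map_one]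
        have h2 : ∀ q' : Nat.Primes, tameGlobal p m q' u = 1 := by
          intro q'
          by_cases h : (q' : ℕ) = p
          · exact tameGlobal_of_eq p m q' h u
          · exact hsingle q' (by rw [hqp]; exact h)
        simp [h1, h2]
      · -- `q ≠ p`
        have : Fact q.Prime := ⟨hq⟩
        have h1 : unitResidue p m (toPadicUnits p u) = primeUnit p m q hqp := by
          apply Units.ext
          rw [unitResidue_intCast p m (q : ℤ) _ _ (by simp [hu])]
          · simp
          · intro h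
            have h' : p ∣ q := by exact_mod_cast h
            exact hqp ((Nat.prime_dvd_prime_iff_eq hp.out hq).mp h').symm
        have h2 : (∏ᶠ q' : Nat.Primes, tameGlobal p m q' u) = primeUnit p m q hqp := by
          rw [finprod_eq_single (fun q' : Nat.Primes => tameGlobal p m q' u) (⟨q, hq⟩ : Nat.Primes)
            (fun q' hq' => hsingle q' (fun h => hq' (Subtype.ext h)))]
          rw [tameGlobal_of_ne p m ⟨q, hq⟩ hqp, hu]
          have : padicValRat q (q : ℚ) = 1 := by
            have := padicValRat.self (p := q) hq.one_lt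
            simpa using this
          simp [this]
        rw [h1, h2, inv_mul_cancel]
  have := congrArg (fun f : ℚˣ →* (ZMod (p ^ m))ˣ => f b) key
  simpa using this

end Fermat.Agent.S55.H413
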