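import Mathlib

/-!
# S55, leaf WR, part 3b: `1 + p^m ℤ_p ⊆ (ℤ_pˣ)^{φ(p^m)}` for odd `p`

Every `p`-adic unit which is `≡ 1 mod p ^ m` is a `φ(p ^ m)`-th power (`p` odd, `m ≥ 1`).
Proof: it is a `φ(p^m)`-th power modulo `p ^ (2 m)` because `(ℤ/p^{2m})ˣ` is cyclic, and then
Hensel's lemma applies.
-/

set_option autoImplicit false

namespace Fermat.Agent.S55.H413

open Polynomial

/-- In a finite cyclic group `C` with a surjection `f` onto a group of order `N`, every element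
of the kernel of `f` is an `N`-th power. -/
theorem exists_pow_eq_of_mem_ker_of_isCyclic {C D : Type*} [Group C] [Group D] [Finite C]
    [IsCyclic C] (f : C →* D) (hf : Function.Surjective f) (x : C) (hx : x ∈ f.ker) :
    ∃ y : C, y ^ Nat.card D = x := by
  classical
  set N := Nat.card D with hN
  set k := Nat.card f.ker with hk
  have hcard : k * N = Nat.card C := by
    have h1 := Subgroup.card_mul_index f.ker
    rw [Subgroup.index_ker, MonoidHom.range_eq_top.mpr hf] at h1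
    have h2 : Nat.card (⊤ : Subgroup D) = Nat.card D := Subgroup.card_top
    rw [h2] at h1
    exact h1
  have hkpos : 0 < k := Nat.card_pos
  have hxk : x ^ k = 1 := by
    have h1 : (⟨x, hx⟩ : f.ker) ^ k = 1 := pow_card_eq_one' (G := f.ker) (x := ⟨x, hx⟩)
    have h2 := congrArg (Subtype.val) h1
    rwa [Subgroup.coe_pow, Subgroup.coe_one] at h2
  obtain ⟨g, hg⟩ := IsCyclic.exists_generator (α := C)
  obtain ⟨j, hj⟩ := Subgroup.mem_zpowers_iff.mp (hg x)
  have hord : orderOf g = Nat.card C := orderOf_eq_card_of_forall_mem_zpowers hg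
  have h1 : g ^ (j * (k : ℤ)) = 1 := by
    rw [zpow_mul, hj, zpow_natCast, hxk]
  have h2 : ((orderOf g : ℕ) : ℤ) ∣ j * (k : ℤ) := orderOf_dvd_iff_zpow_eq_one.mpr h1
  rw [hord, ← hcard] at h2
  have h3 : (N : ℤ) ∣ j := by
    have h4 : (N : ℤ) * (k : ℤ) ∣ j * (k : ℤ) := by
      have : ((k * N : ℕ) : ℤ) = (N : ℤ) * (k : ℤ) := by push_cast; ring
      rwa [this] at h2
    exact Int.dvd_of_mul_dvd_mul_right (by exact_mod_cast hkpos.ne') h4
  obtain ⟨t, ht⟩ := h3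
  refine ⟨g ^ t, ?_⟩
  rw [← zpow_natCast, ← zpow_mul, mul_comm, ← ht, hj]

variable (p : ℕ) [hp : Fact p.Prime]

lemma toZModPow_comp_castHom (m n : ℕ) (h : m ≤ n) (x : ℤ_[p]) :
    ZMod.castHom (pow_dvd_pow p h) (ZMod (p ^ m)) (PadicInt.toZModPow n x) =
      PadicInt.toZModPow m x := by
  have := PadicInt.zmod_cast_comp_toZModPow (p := p) m n h
  exact congrArg (fun f => f x) this

/-- Every `p`-adic unit `≡ 1 mod p ^ m` is a `φ(p ^ m)`-th power (`p` odd, `m ≥ 1`). -/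
theorem exists_pow_totient_eq (hp2 : p ≠ 2) (m : ℕ) (hm : 0 < m) (u : ℤ_[p]ˣ)
    (hu : PadicInt.toZModPow m (u : ℤ_[p]) = 1) :
    ∃ w : ℤ_[p]ˣ, w ^ (p ^ m).totient = u := by
  classical
  set N := (p ^ m).totient with hN
  have hNpos : 0 < N := Nat.totient_pos.mpr (pow_pos hp.out.pos m)
  have hNlt : N < p ^ m := Nat.totient_lt _ (Nat.one_lt_pow hm.ne' hp.out.one_lt)
  have : IsCyclic (ZMod (p ^ (2 * m)))ˣ := ZMod.isCyclic_units_of_prime_pow p hp.out hp2 (2 * m)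
  have : NeZero (p ^ m) := ⟨(pow_pos hp.out.pos m).ne'⟩
  have : NeZero (p ^ (2 * m)) := ⟨(pow_pos hp.out.pos _).ne'⟩
  have hdvd : p ^ m ∣ p ^ (2 * m) := pow_dvd_pow p (by omega)
  -- the image of `u` modulo `p ^ (2 m)`
  set ubar : (ZMod (p ^ (2 * m)))ˣ :=
    Units.map (PadicInt.toZModPow (2 * m) : ℤ_[p] →+* ZMod (p ^ (2 * m))).toMonoidHom u with hubar
  have hker : ubar ∈ (ZMod.unitsMap hdvd).ker := by
    rw [MonoidHom.mem_ker]
    apply Units.ext
    simp only [ZMod.unitsMap, Units.coe_map, Units.val_one, hubar, MonoidHom.coe_coe,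
      RingHom.toMonoidHom_eq_coe]
    rw [toZModPow_comp_castHom p m (2 * m) (by omega), hu]
  obtain ⟨y, hy⟩ := exists_pow_eq_of_mem_ker_of_isCyclic (ZMod.unitsMap hdvd)
    (ZMod.unitsMap_surjective hdvd) ubar hker
  have hcardD : Nat.card (ZMod (p ^ m))ˣ = N := by
    rw [Nat.card_eq_fintype_card, ZMod.card_units_eq_totient]
  rw [hcardD] at hy
  -- a lift of `y`
  set a : ℤ_[p] := ((y : ZMod (p ^ (2 * m))).val : ℤ_[p]) with ha
  have hay : PadicInt.toZModPow (2 * m) a = (y : ZMod (p ^ (2 * m))) := by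
    rw [ha, map_natCast, ZMod.natCast_zmod_val]
  have hFa : ‖a ^ N - (u : ℤ_[p])‖ ≤ (p : ℝ) ^ (-((2 * m : ℕ) : ℤ)) := by
    rw [PadicInt.norm_le_pow_iff_mem_span_pow, ← PadicInt.ker_toZModPow, RingHom.mem_ker,
      map_sub, map_pow, hay]
    have : ((y ^ N : (ZMod (p ^ (2 * m)))ˣ) : ZMod (p ^ (2 * m))) = (ubar : ZMod (p ^ (2 * m))) := by
      rw [hy]
    rw [Units.val_pow_eq_pow_val] at this
    rw [this, hubar]
    simp
  have hp1 : (1 : ℝ) < p := by exact_mod_cast hp.out.one_lt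
  have hp0 : (0 : ℝ) < p := by linarith
  have hsmall : (p : ℝ) ^ (-((2 * m : ℕ) : ℤ)) < 1 := by
    apply zpow_lt_one_of_neg₀ hp1
    have : (0 : ℤ) < ((2 * m : ℕ) : ℤ) := by exact_mod_cast (by omega : 0 < 2 * m)
    omega
  have hnu : ‖(u : ℤ_[p])‖ = 1 := PadicInt.norm_units u
  have haN : ‖a ^ N‖ = 1 := by
    refine le_antisymm (PadicInt.norm_le_one _) ?_
    by_contra hlt
    rw [not_le] at hlt
    have h1 : ‖(u : ℤ_[p])‖ ≤ max ‖a ^ N‖ ‖a ^ N - (u : ℤ_[p])‖ := by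
      have := PadicInt.nonarchimedean (a ^ N) (-(a ^ N - (u : ℤ_[p])))
      rw [norm_neg] at this
      have e : a ^ N + -(a ^ N - (u : ℤ_[p])) = u := by ring
      rwa [e] at this
    have h2 : max ‖a ^ N‖ ‖a ^ N - (u : ℤ_[p])‖ < 1 := max_lt hlt (lt_of_le_of_lt hFa hsmall)
    rw [hnu] at h1
    exact absurd h1 (not_le.mpr h2)
  have ha1 : ‖a‖ = 1 := by
    rw [norm_pow] at haN
    exact (pow_eq_one_iff_of_nonneg (norm_nonneg a) hNpos.ne').mp haN
  -- the norm of `N`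
  have hNnorm : (p : ℝ) ^ (-(m : ℤ)) < ‖(N : ℤ_[p])‖ := by
    by_contra hle
    rw [not_lt] at hle
    rw [PadicInt.norm_le_pow_iff_mem_span_pow, Ideal.mem_span_singleton] at hle
    have h1 : ((p : ℤ_[p]) ^ m) ∣ ((N : ℤ) : ℤ_[p]) := by simpa using hle
    rw [PadicInt.pow_p_dvd_int_iff] at h1
    have h2 : p ^ m ∣ N := by exact_mod_cast h1
    exact absurd (Nat.le_of_dvd hNpos h2) (not_le.mpr hNlt)
  -- Hensel
  set F : ℤ_[p][X] := X ^ N - C (u : ℤ_[p]) with hF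
  have hFeval : aeval a F = a ^ N - (u : ℤ_[p]) := by simp [hF]
  have hF'eval : aeval a (derivative F) = (N : ℤ_[p]) * a ^ (N - 1) := by
    simp [hF, derivative_X_pow]
  have hF'norm : ‖aeval a (derivative F)‖ = ‖(N : ℤ_[p])‖ := by
    rw [hF'eval, norm_mul, norm_pow, ha1, one_pow, mul_one]
  have hhens : ‖aeval a F‖ < ‖aeval a (derivative F)‖ ^ 2 := by
    rw [hFeval, hF'norm]
    calc ‖a ^ N - (u : ℤ_[p])‖ ≤ (p : ℝ) ^ (-((2 * m : ℕ) : ℤ)) := hFa
      _ = ((p : ℝ) ^ (-(m : ℤ))) ^ 2 := by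
          rw [← zpow_natCast ((p : ℝ) ^ (-(m : ℤ))) 2, ← zpow_mul]
          congr 1
          push_cast
          ring
      _ < ‖(N : ℤ_[p])‖ ^ 2 := by
          apply pow_lt_pow_left₀ hNnorm (zpow_nonneg hp0.le _) (by norm_num)
  obtain ⟨z, hz, -⟩ := hensels_lemma hhens
  have hzN : z ^ N = (u : ℤ_[p]) := by
    have : aeval z F = z ^ N - (u : ℤ_[p]) := by simp [hF]
    rw [this, sub_eq_zero] at hz
    exact hz
  have hzunit : IsUnit z := by
    have : IsUnit (z ^ N) := by rw [hzN]; exact u.isUnit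
    exact (isUnit_pow_iff hNpos.ne').mp this
  refine ⟨hzunit.unit, ?_⟩
  apply Units.ext
  rw [Units.val_pow_eq_pow_val, IsUnit.unit_spec, hzN]

end Fermat.Agent.S55.H413
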