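import Fermat.Agent.S55.H413.WRNormP

/-!
# S55, leaf WR, part 3d: norm groups of the subfields of `ℚ_p(ζ_{p^(n+1)})`

For an intermediate field `E` of `F = ℚ_p(ζ_{p^(n+1)})` over `ℚ_p` (`p` odd):
`x ∈ N(Eˣ) ↔ wildChar x ^ [F : E] = 1`, given the local norm index theorem for `E/ℚ_p`.
In particular for the layer of degree `p ^ n` (`[F : E] = p - 1`):
`N(Eˣ) = { x : (unit part of x) ^ (p - 1) ≡ 1 mod p ^ (n + 1) }`.
-/

set_option autoImplicit false

namespace Fermat.Agent.S55.H413

open Polynomial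

/-- Two subgroups `H ≤ K` of the same finite nonzero index are equal. -/
theorem subgroup_eq_of_le_of_index_eq {G : Type*} [Group G] {H K : Subgroup G} (hle : H ≤ K)
    (hidx : H.index = K.index) (h0 : K.index ≠ 0) : H = K := by
  have h1 := Subgroup.relIndex_mul_index hle
  rw [hidx] at h1
  have h2 : H.relIndex K = 1 := by
    have : H.relIndex K * K.index = 1 * K.index := by rw [h1, one_mul]
    exact Nat.eq_of_mul_eq_mul_right (Nat.pos_of_ne_zero h0) this
  exact le_antisymm hle (Subgroup.relIndex_eq_one.mp h2)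

variable (p : ℕ) [hp : Fact p.Prime]

section Cyclotomic

variable (n : ℕ) (F : Type*) [Field F] [Algebra ℚ_[p] F]
  [IsCyclotomicExtension {p ^ (n + 1)} ℚ_[p] F]

/-- The subgroup `{x : wildChar x ^ d = 1}` of `ℚ_[p]ˣ`. -/
noncomputable abbrev wildKer (m d : ℕ) : Subgroup ℚ_[p]ˣ :=
  ((powMonoidHom d : (ZMod (p ^ m))ˣ →* (ZMod (p ^ m))ˣ).comp (wildChar p m)).ker

lemma mem_wildKer_iff (m d : ℕ) (x : ℚ_[p]ˣ) :
    x ∈ wildKer p m d ↔ wildChar p m x ^ d = 1 := by
  rw [MonoidHom.mem_ker]; rfl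

lemma index_wildKer (hp2 : p ≠ 2) (m : ℕ) (hm : 0 < m) (d : ℕ) :
    (wildKer p m d).index = (p ^ m).totient / ((p ^ m).totient.gcd d) := by
  have : NeZero (p ^ m) := ⟨(pow_pos hp.out.pos m).ne'⟩
  have : IsCyclic (ZMod (p ^ m))ˣ := ZMod.isCyclic_units_of_prime_pow p hp.out hp2 m
  have h1 : wildKer p m d = Subgroup.comap (wildChar p m)
      (powMonoidHom d : (ZMod (p ^ m))ˣ →* (ZMod (p ^ m))ˣ).ker := by
    rw [MonoidHom.comap_ker]
  rw [h1, Subgroup.index_comap_of_surjective _ (wildChar_surjective p m hm), Subgroup.index_ker,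
    IsCyclic.card_powMonoidHom_range, Nat.card_eq_fintype_card, ZMod.card_units_eq_totient]

/-- `N(Eˣ) ≤ {x : wildChar x ^ [F:E] = 1}` for every intermediate field `E`, given the norm
index theorem for `F/ℚ_p`. -/
theorem normRange_intermediate_le (hp2 : p ≠ 2) (E : IntermediateField ℚ_[p] F)
    (hNIF : (normRange p F).index = Module.finrank ℚ_[p] F) :
    normRange p E ≤ wildKer p (n + 1) (Module.finrank E F) := by
  have : FiniteDimensional ℚ_[p] F :=
    IsCyclotomicExtension.finiteDimensional {p ^ (n + 1)} ℚ_[p] F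
  rintro x ⟨e, rfl⟩
  rw [mem_wildKer_iff, ← map_pow, ← MonoidHom.mem_ker, ← normRange_eq_ker_wildChar p n F hp2 hNIF]
  refine ⟨Units.map (algebraMap E F : E →* F) e, ?_⟩
  apply Units.ext
  rw [Units.coe_map, Units.coe_map, Units.val_pow_eq_pow_val, Units.coe_map]
  show Algebra.norm ℚ_[p] (algebraMap E F (e : E)) = (Algebra.norm ℚ_[p] (e : E)) ^ _
  rw [← Algebra.norm_norm (S := E), Algebra.norm_algebraMap, map_pow]

/-- **Norm groups of the layers of the local cyclotomic tower at `p`.** -/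
theorem normRange_intermediate_eq (hp2 : p ≠ 2) (E : IntermediateField ℚ_[p] F)
    (hNIF : (normRange p F).index = Module.finrank ℚ_[p] F)
    (hNIE : (normRange p E).index = Module.finrank ℚ_[p] E) :
    normRange p E = wildKer p (n + 1) (Module.finrank E F) := by
  have : FiniteDimensional ℚ_[p] F :=
    IsCyclotomicExtension.finiteDimensional {p ^ (n + 1)} ℚ_[p] F
  have hle := normRange_intermediate_le p n F hp2 E hNIF
  have hmul : Module.finrank ℚ_[p] E * Module.finrank E F = (p ^ (n + 1)).totient := by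
    rw [Module.finrank_mul_finrank, finrank_cyclotomic_padic p n F]
  have hEpos : 0 < Module.finrank ℚ_[p] E := Module.finrank_pos
  have hFEpos : 0 < Module.finrank E F := Module.finrank_pos
  have hidx : (wildKer p (n + 1) (Module.finrank E F)).index = Module.finrank ℚ_[p] E := by
    rw [index_wildKer p hp2 (n + 1) (Nat.succ_pos n), ← hmul,
      Nat.gcd_eq_right (Dvd.intro_left _ rfl), Nat.mul_div_cancel _ hFEpos]
  apply subgroup_eq_of_le_of_index_eq hle (by rw [hNIE, hidx]) (by rw [hidx]; exact hEpos.ne')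

/-- Membership form. -/
theorem mem_normRange_intermediate_iff (hp2 : p ≠ 2) (E : IntermediateField ℚ_[p] F)
    (hNIF : (normRange p F).index = Module.finrank ℚ_[p] F)
    (hNIE : (normRange p E).index = Module.finrank ℚ_[p] E) (x : ℚ_[p]ˣ) :
    x ∈ normRange p E ↔ wildChar p (n + 1) x ^ Module.finrank E F = 1 := by
  rw [normRange_intermediate_eq p n F hp2 E hNIF hNIE, mem_wildKer_iff]

end Cyclotomic

end Fermat.Agent.S55.H413
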