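import Mathlib

/-!
# S55, leaf WR, part 3a: the cyclotomic polynomial of `p`-power level is irreducible over `ℚ_[p]`

(Eisenstein's criterion over `ℤ_[p]` + Gauss's lemma.)  Consequences for a cyclotomic extension
`F/ℚ_[p]` of level `p ^ (n + 1)`: degree `φ(p^(n+1))`, Galois group `≃* (ZMod (p^(n+1)))ˣ`,
and `N(ζ - 1) = p` for odd `p`.
-/

set_option autoImplicit false

namespace Fermat.Agent.S55.H413

open Polynomial

variable (p : ℕ) [hp : Fact p.Prime]

theorem isEisensteinAt_cyclotomic_comp_padicInt (n : ℕ) :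
    ((cyclotomic (p ^ (n + 1)) ℤ_[p]).comp (X + 1)).IsEisensteinAt
      (Ideal.span {(p : ℤ_[p])}) := by
  have hZ := cyclotomic_prime_pow_comp_X_add_one_isEisensteinAt p n
  have hmonicZ : ((cyclotomic (p ^ (n + 1)) ℤ).comp (X + 1)).Monic := by
    rw [show (X + 1 : ℤ[X]) = X + C 1 by simp]
    refine (cyclotomic.monic _ ℤ).comp (monic_X_add_C 1) fun h => ?_
    rw [natDegree_X_add_C] at h
    exact zero_ne_one h.symm
  have hmap : (cyclotomic (p ^ (n + 1)) ℤ_[p]).comp (X + 1) =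
      ((cyclotomic (p ^ (n + 1)) ℤ).comp (X + 1)).map (Int.castRingHom ℤ_[p]) := by
    simp [Polynomial.map_comp, map_cyclotomic]
  have hprime : (Ideal.span {(p : ℤ_[p])}).IsPrime :=
    (Ideal.span_singleton_prime (PadicInt.prime_p (p := p)).ne_zero).2 PadicInt.prime_p
  refine Monic.isEisensteinAt_of_mem_of_notMem ?_ hprime.ne_top ?_ ?_
  · rw [hmap]; exact hmonicZ.map _
  · intro i hi
    rw [hmap] at hi ⊢
    rw [hmonicZ.natDegree_map] at hi
    have := hZ.mem hi
    rw [Ideal.submodule_span_eq, Ideal.mem_span_singleton] at this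
    obtain ⟨c, hc⟩ := this
    rw [coeff_map, hc, Ideal.mem_span_singleton]
    exact ⟨(c : ℤ_[p]), by simp⟩
  · rw [coeff_zero_eq_eval_zero, eval_comp, eval_add, eval_X, eval_one, zero_add,
      eval_one_cyclotomic_prime_pow, Ideal.span_singleton_pow, Ideal.mem_span_singleton]
    rintro ⟨c, hc⟩
    have hp0 : (p : ℤ_[p]) ≠ 0 := (PadicInt.prime_p (p := p)).ne_zero
    have h1 : (p : ℤ_[p]) * 1 = (p : ℤ_[p]) * ((p : ℤ_[p]) * c) := by
      rw [mul_one, ← mul_assoc, ← pow_two]; exact hc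
    have h2 : (1 : ℤ_[p]) = (p : ℤ_[p]) * c := mul_left_cancel₀ hp0 h1
    exact (PadicInt.prime_p (p := p)).not_isUnit (IsUnit.of_mul_eq_one c h2.symm)

theorem irreducible_cyclotomic_padicInt (n : ℕ) :
    Irreducible (cyclotomic (p ^ (n + 1)) ℤ_[p]) := by
  have hE := isEisensteinAt_cyclotomic_comp_padicInt p n
  have hprime : (Ideal.span {(p : ℤ_[p])}).IsPrime :=
    (Ideal.span_singleton_prime (PadicInt.prime_p (p := p)).ne_zero).2 PadicInt.prime_p
  have hmonic : ((cyclotomic (p ^ (n + 1)) ℤ_[p]).comp (X + 1)).Monic := by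
    rw [show (X + 1 : ℤ_[p][X]) = X + C 1 by simp]
    refine (cyclotomic.monic _ _).comp (monic_X_add_C 1) fun h => ?_
    rw [natDegree_X_add_C] at h
    exact zero_ne_one h.symm
  have hdeg : 0 < ((cyclotomic (p ^ (n + 1)) ℤ_[p]).comp (X + 1)).natDegree := by
    rw [natDegree_comp, show (X + 1 : ℤ_[p][X]) = X + C 1 by simp, natDegree_X_add_C, mul_one,
      natDegree_cyclotomic]
    exact Nat.totient_pos.mpr (pow_pos hp.out.pos _)
  have hirr := hE.irreducible hprime hmonic.isPrimitive hdeg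
  have hcomp : (cyclotomic (p ^ (n + 1)) ℤ_[p]).comp (X + 1) =
      algEquivAevalXAddC (1 : ℤ_[p]) (cyclotomic (p ^ (n + 1)) ℤ_[p]) := by
    simp [algEquivAevalXAddC, aeval_def, eval₂_eq_eval_map, comp]
  rw [hcomp] at hirr
  exact (MulEquiv.irreducible_iff (algEquivAevalXAddC (1 : ℤ_[p])).toMulEquiv).mp hirr

/-- The cyclotomic polynomial of level `p ^ (n + 1)` is irreducible over `ℚ_[p]`. -/
theorem irreducible_cyclotomic_padic (n : ℕ) :
    Irreducible (cyclotomic (p ^ (n + 1)) ℚ_[p]) := by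
  have h := (Monic.irreducible_iff_irreducible_map_fraction_map (K := ℚ_[p])
    (cyclotomic.monic (p ^ (n + 1)) ℤ_[p])).mp (irreducible_cyclotomic_padicInt p n)
  rwa [map_cyclotomic] at h

end Fermat.Agent.S55.H413
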