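import Mathlib

/-!
# S55, leaf WR (weak reciprocity), part 1: local characters on `ℚ_[ℓ]ˣ`

For a prime `ℓ` we define
* `valHom ℓ : ℚ_[ℓ]ˣ →* Multiplicative ℤ`, the valuation,
* `unitPart ℓ : ℚ_[ℓ]ˣ →* ℤ_[ℓ]ˣ`, `x ↦ x * ℓ ^ (-v x)`,
* `unitResidue ℓ m : ℚ_[ℓ]ˣ →* (ZMod (ℓ ^ m))ˣ`, the unit part modulo `ℓ ^ m`.
-/

set_option autoImplicit false

namespace Fermat.Agent.S55.H413

open Padic

variable (ℓ : ℕ) [hℓ : Fact ℓ.Prime]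

/-- The valuation as a monoid homomorphism. -/
noncomputable def valHom : ℚ_[ℓ]ˣ →* Multiplicative ℤ where
  toFun x := Multiplicative.ofAdd (x : ℚ_[ℓ]).valuation
  map_one' := by simp
  map_mul' x y := by
    rw [Units.val_mul, Padic.valuation_mul x.ne_zero y.ne_zero, ofAdd_add]

@[simp] lemma valHom_apply (x : ℚ_[ℓ]ˣ) :
    Multiplicative.toAdd (valHom ℓ x) = (x : ℚ_[ℓ]).valuation := rfl

lemma norm_unitPart_aux (x : ℚ_[ℓ]ˣ) :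
    ‖(x : ℚ_[ℓ]) * (ℓ : ℚ_[ℓ]) ^ (-(x : ℚ_[ℓ]).valuation)‖ = 1 := by
  have hℓ0 : (ℓ : ℝ) ≠ 0 := by exact_mod_cast hℓ.out.ne_zero
  rw [norm_mul, Padic.norm_p_zpow, Padic.norm_eq_zpow_neg_valuation x.ne_zero, neg_neg,
    ← zpow_add₀ hℓ0]
  simp

/-- The unit part `x * ℓ ^ (-v x)` of a nonzero `ℓ`-adic number, as a monoid homomorphism. -/
noncomputable def unitPart : ℚ_[ℓ]ˣ →* ℤ_[ℓ]ˣ where
  toFun x := PadicInt.mkUnits (norm_unitPart_aux ℓ x)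
  map_one' := by
    apply Units.ext
    apply Subtype.ext
    simp
  map_mul' x y := by
    apply Units.ext
    apply Subtype.ext
    have hℓ0 : (ℓ : ℚ_[ℓ]) ≠ 0 := by exact_mod_cast hℓ.out.ne_zero
    simp only [PadicInt.val_mkUnits, Units.val_mul, PadicInt.coe_mul,
      Padic.valuation_mul x.ne_zero y.ne_zero, neg_add, zpow_add₀ hℓ0]
    show _ = (x : ℚ_[ℓ]) * (ℓ : ℚ_[ℓ]) ^ (-(x : ℚ_[ℓ]).valuation) *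
      ((y : ℚ_[ℓ]) * (ℓ : ℚ_[ℓ]) ^ (-(y : ℚ_[ℓ]).valuation))
    ring

lemma coe_unitPart (x : ℚ_[ℓ]ˣ) :
    (((unitPart ℓ x : ℤ_[ℓ]ˣ) : ℤ_[ℓ]) : ℚ_[ℓ]) = (x : ℚ_[ℓ]) * (ℓ : ℚ_[ℓ]) ^ (-(x : ℚ_[ℓ]).valuation) :=
  rfl

lemma eq_unitPart_mul (x : ℚ_[ℓ]ˣ) :
    (x : ℚ_[ℓ]) = (((unitPart ℓ x : ℤ_[ℓ]ˣ) : ℤ_[ℓ]) : ℚ_[ℓ]) * (ℓ : ℚ_[ℓ]) ^ ((x : ℚ_[ℓ]).valuation) := by
  have hℓ0 : (ℓ : ℚ_[ℓ]) ≠ 0 := by exact_mod_cast hℓ.out.ne_zero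
  rw [coe_unitPart, mul_assoc, ← zpow_add₀ hℓ0]
  simp

/-- The unit part modulo `ℓ ^ m`. -/
noncomputable def unitResidue (m : ℕ) : ℚ_[ℓ]ˣ →* (ZMod (ℓ ^ m))ˣ :=
  (Units.map (PadicInt.toZModPow m : ℤ_[ℓ] →+* ZMod (ℓ ^ m)).toMonoidHom).comp (unitPart ℓ)

lemma coe_unitResidue (m : ℕ) (x : ℚ_[ℓ]ˣ) :
    ((unitResidue ℓ m x : (ZMod (ℓ ^ m))ˣ) : ZMod (ℓ ^ m)) =
      PadicInt.toZModPow m ((unitPart ℓ x : ℤ_[ℓ]ˣ) : ℤ_[ℓ]) := rfl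

/-- The unit part of (the image of) an integer prime to `ℓ` is that integer. -/
lemma unitPart_intCast (a : ℤ) (ha : ¬ (ℓ : ℤ) ∣ a) (x : ℚ_[ℓ]ˣ) (hx : (x : ℚ_[ℓ]) = a) :
    ((unitPart ℓ x : ℤ_[ℓ]ˣ) : ℤ_[ℓ]) = (a : ℤ_[ℓ]) := by
  apply Subtype.ext
  rw [coe_unitPart, hx]
  have hv : (a : ℚ_[ℓ]).valuation = 0 := by
    rw [Padic.valuation_intCast]
    exact_mod_cast padicValInt.eq_zero_of_not_dvd ha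
  simp [hv]

lemma unitResidue_intCast (m : ℕ) (a : ℤ) (ha : ¬ (ℓ : ℤ) ∣ a) (x : ℚ_[ℓ]ˣ)
    (hx : (x : ℚ_[ℓ]) = a) :
    ((unitResidue ℓ m x : (ZMod (ℓ ^ m))ˣ) : ZMod (ℓ ^ m)) = (a : ZMod (ℓ ^ m)) := by
  rw [coe_unitResidue, unitPart_intCast ℓ a ha x hx]
  simp

/-- The unit part of `ℓ` itself is `1`. -/
lemma unitPart_self (x : ℚ_[ℓ]ˣ) (hx : (x : ℚ_[ℓ]) = ℓ) : unitPart ℓ x = 1 := by
  apply Units.ext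
  apply Subtype.ext
  have hℓ0 : (ℓ : ℚ_[ℓ]) ≠ 0 := by exact_mod_cast hℓ.out.ne_zero
  rw [coe_unitPart, hx, Padic.valuation_p]
  simp [hℓ0]

end Fermat.Agent.S55.H413
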