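import Fermat.Agent.S55.H413.WRGlobal
import Fermat.Agent.S55.H413.WRIrred
import Fermat.Agent.S55.H413.WRPow

/-!
# S55, leaf WR, part 3c: the norm group of `ℚ_p(ζ_{p^(n+1)})/ℚ_p`

For an odd prime `p` and a cyclotomic extension `F/ℚ_[p]` of level `p ^ (n + 1)`:
* `ker (wildChar p (n+1)) ≤ N(Fˣ)` unconditionally (`p = N(ζ - 1)`, and units `≡ 1 mod p^(n+1)`
  are `φ(p^(n+1))`-th powers, hence norms);
* `wildChar` is surjective, so its kernel has index `φ(p^(n+1)) = [F : ℚ_p]`;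
* hence `N(Fˣ) = ker (wildChar p (n+1))` as soon as the local norm index theorem
  `[ℚ_pˣ : N(Fˣ)] = [F : ℚ_p]` is known (hypothesis `hNI`; this is the instance `K = ℚ_[p]`,
  `L = F` of `Fermat.Agent.S55.L.NormIndexCyclicSpec`).
-/

set_option autoImplicit false

namespace Fermat.Agent.S55.H413

open Polynomial

variable (p : ℕ) [hp : Fact p.Prime]

/-- The inclusion `ℤ_[p]ˣ → ℚ_[p]ˣ`. -/
noncomputable def padicIntUnitsToPadic : ℤ_[p]ˣ →* ℚ_[p]ˣ :=
  Units.map (PadicInt.Coe.ringHom (p := p)).toMonoidHom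

@[simp] lemma coe_padicIntUnitsToPadic (w : ℤ_[p]ˣ) :
    ((padicIntUnitsToPadic p w : ℚ_[p]ˣ) : ℚ_[p]) = ((w : ℤ_[p]) : ℚ_[p]) := rfl

lemma valuation_eq_zero_of_norm_eq_one {x : ℚ_[p]} (hx : ‖x‖ = 1) : x.valuation = 0 := by
  have hx0 : x ≠ 0 := by
    rintro rfl
    simp at hx
  rw [Padic.norm_eq_zpow_neg_valuation hx0] at hx
  have hp1 : (1 : ℝ) < p := by exact_mod_cast hp.out.one_lt
  have := (zpow_eq_one_iff_right₀ (by linarith : (0 : ℝ) ≤ p) hp1.ne').mp hx
  omega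

lemma unitPart_padicIntUnitsToPadic (w : ℤ_[p]ˣ) : unitPart p (padicIntUnitsToPadic p w) = w := by
  apply Units.ext
  apply Subtype.ext
  rw [coe_unitPart, coe_padicIntUnitsToPadic,
    valuation_eq_zero_of_norm_eq_one p (by simp)]
  simp

/-- Units of `ZMod (p ^ m)` lift to units of `ℤ_[p]` (for `m ≥ 1`). -/
lemma exists_padicInt_unit_toZModPow (m : ℕ) (hm : 0 < m) (c : (ZMod (p ^ m))ˣ) :
    ∃ w : ℤ_[p]ˣ, PadicInt.toZModPow m (w : ℤ_[p]) = (c : ZMod (p ^ m)) := by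
  have : NeZero (p ^ m) := ⟨(pow_pos hp.out.pos m).ne'⟩
  set a : ℤ_[p] := ((c : ZMod (p ^ m)).val : ℤ_[p]) with ha
  have hac : PadicInt.toZModPow m a = (c : ZMod (p ^ m)) := by
    rw [ha, map_natCast, ZMod.natCast_zmod_val]
  have haunit : IsUnit a := by
    rw [PadicInt.isUnit_iff]
    refine le_antisymm (PadicInt.norm_le_one _) ?_
    by_contra hlt
    rw [not_le, PadicInt.norm_lt_one_iff_dvd] at hlt
    obtain ⟨b, hb⟩ := hlt
    have h1 : (c : ZMod (p ^ m)) = (p : ZMod (p ^ m)) * PadicInt.toZModPow m b := by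
      rw [← hac, hb, map_mul, map_natCast]
    have h2 : IsUnit (p : ZMod (p ^ m)) := by
      have hc : IsUnit ((p : ZMod (p ^ m)) * PadicInt.toZModPow m b) := by
        rw [← h1]; exact c.isUnit
      exact isUnit_of_mul_isUnit_left hc
    have h3 : (p : ZMod (p ^ m)) ^ m = 0 := by
      have h5 : ((p ^ m : ℕ) : ZMod (p ^ m)) = 0 := ZMod.natCast_self _
      rw [Nat.cast_pow] at h5
      exact h5
    have h4 : IsUnit ((p : ZMod (p ^ m)) ^ m) := h2.pow m
    rw [h3] at h4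
    have : Nontrivial (ZMod (p ^ m)) :=
      ZMod.nontrivial_iff.mpr (Nat.one_lt_pow hm.ne' hp.out.one_lt).ne'
    exact not_isUnit_zero h4
  exact ⟨haunit.unit, by rw [IsUnit.unit_spec, hac]⟩

lemma wildChar_surjective (m : ℕ) (hm : 0 < m) : Function.Surjective (wildChar p m) := by
  intro c
  obtain ⟨w, hw⟩ := exists_padicInt_unit_toZModPow p m hm c⁻¹
  refine ⟨padicIntUnitsToPadic p w, ?_⟩
  rw [wildChar_apply, inv_eq_iff_eq_inv]
  apply Units.ext
  rw [coe_unitResidue, unitPart_padicIntUnitsToPadic, hw]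

lemma index_ker_wildChar (m : ℕ) (hm : 0 < m) : (wildChar p m).ker.index = (p ^ m).totient := by
  have : NeZero (p ^ m) := ⟨(pow_pos hp.out.pos m).ne'⟩
  rw [Subgroup.index_ker, MonoidHom.range_eq_top.mpr (wildChar_surjective p m hm),
    Subgroup.card_top, Nat.card_eq_fintype_card, ZMod.card_units_eq_totient]

lemma mem_ker_wildChar_iff (m : ℕ) (x : ℚ_[p]ˣ) :
    x ∈ (wildChar p m).ker ↔ PadicInt.toZModPow m ((unitPart p x : ℤ_[p]ˣ) : ℤ_[p]) = 1 := by
  rw [MonoidHom.mem_ker, wildChar_apply, inv_eq_one, ← coe_unitResidue]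
  exact ⟨fun h => by rw [h]; rfl, fun h => Units.ext (by rw [h]; rfl)⟩

section Cyclotomic

variable (n : ℕ) (F : Type*) [Field F] [Algebra ℚ_[p] F]
  [IsCyclotomicExtension {p ^ (n + 1)} ℚ_[p] F]

/-- The norm group of `F/ℚ_p`. -/
noncomputable abbrev normRange : Subgroup ℚ_[p]ˣ :=
  MonoidHom.range (Units.map (Algebra.norm ℚ_[p] : F →* ℚ_[p]))

lemma finrank_cyclotomic_padic : Module.finrank ℚ_[p] F = (p ^ (n + 1)).totient :=
  IsCyclotomicExtension.finrank F (irreducible_cyclotomic_padic p n)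

/-- `ker (wildChar) ≤ N(Fˣ)`: unconditional. -/
theorem ker_wildChar_le_normRange (hp2 : p ≠ 2) :
    (wildChar p (n + 1)).ker ≤ normRange p F := by
  have : NeZero (p ^ (n + 1)) := ⟨(pow_pos hp.out.pos _).ne'⟩
  have : FiniteDimensional ℚ_[p] F :=
    IsCyclotomicExtension.finiteDimensional {p ^ (n + 1)} ℚ_[p] F
  have hirr := irreducible_cyclotomic_padic p n
  have hζ := IsCyclotomicExtension.zeta_spec (p ^ (n + 1)) ℚ_[p] F
  set ζ := IsCyclotomicExtension.zeta (p ^ (n + 1)) ℚ_[p] F with hζdef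
  have hnorm : Algebra.norm ℚ_[p] (ζ - 1) = (p : ℚ_[p]) :=
    hζ.norm_sub_one_of_prime_ne_two hirr hp2
  have hζ1 : ζ - 1 ≠ 0 :=
    hζ.sub_one_ne_zero (Nat.one_lt_pow (Nat.succ_ne_zero n) hp.out.one_lt)
  intro x hx
  rw [mem_ker_wildChar_iff] at hx
  obtain ⟨w, hw⟩ := exists_pow_totient_eq p hp2 (n + 1) (Nat.succ_pos n) (unitPart p x) hx
  -- the preimage
  set N : Fˣ →* ℚ_[p]ˣ := Units.map (Algebra.norm ℚ_[p] : F →* ℚ_[p]) with hN
  set wF : Fˣ := Units.map (algebraMap ℚ_[p] F : ℚ_[p] →* F) (padicIntUnitsToPadic p w) with hwF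
  set π : Fˣ := Units.mk0 (ζ - 1) hζ1 with hπ
  have hNw : N wF = padicIntUnitsToPadic p (unitPart p x) := by
    apply Units.ext
    rw [hN, Units.coe_map, hwF, Units.coe_map]
    show Algebra.norm ℚ_[p] (algebraMap ℚ_[p] F ((w : ℤ_[p]) : ℚ_[p])) = _
    rw [Algebra.norm_algebraMap, finrank_cyclotomic_padic p n F, ← hw]
    simp
  have hNπ : ((N π : ℚ_[p]ˣ) : ℚ_[p]) = (p : ℚ_[p]) := by
    rw [hN, Units.coe_map, hπ, Units.val_mk0]
    exact hnorm
  refine ⟨wF * π ^ (x : ℚ_[p]).valuation, ?_⟩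
  rw [map_mul, map_zpow, hNw]
  apply Units.ext
  rw [Units.val_mul, Units.val_zpow_eq_zpow_val, hNπ, coe_padicIntUnitsToPadic]
  exact (eq_unitPart_mul p x).symm

/-- **The norm group of `ℚ_p(ζ_{p^(n+1)})/ℚ_p`** is the kernel of the explicit character
`wildChar`, given the local norm index theorem for this (cyclic) extension. -/
theorem normRange_eq_ker_wildChar (hp2 : p ≠ 2)
    (hNI : (normRange p F).index = Module.finrank ℚ_[p] F) :
    normRange p F = (wildChar p (n + 1)).ker := by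
  have hle := ker_wildChar_le_normRange p n F hp2
  have h1 := Subgroup.relIndex_mul_index hle
  rw [hNI, finrank_cyclotomic_padic p n F, index_ker_wildChar p (n + 1) (Nat.succ_pos n)] at h1
  have hpos : 0 < (p ^ (n + 1)).totient := Nat.totient_pos.mpr (pow_pos hp.out.pos _)
  have h2 : (wildChar p (n + 1)).ker.relIndex (normRange p F) = 1 := by
    have : (wildChar p (n + 1)).ker.relIndex (normRange p F) * (p ^ (n + 1)).totient =
        1 * (p ^ (n + 1)).totient := by rw [h1, one_mul]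
    exact Nat.eq_of_mul_eq_mul_right hpos this
  exact le_antisymm (Subgroup.relIndex_eq_one.mp h2) hle

end Cyclotomic

end Fermat.Agent.S55.H413
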